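import Fermat.Agent.S55.GAD.DescH177.Arith

/-!
# S55 / G-ADAPTER, leaf GAD-DESC (helper177): Galois descent for the tower class module

For levels `L ≤ L'` and `S ≠ ∅`, the CANONICAL transition map
`trT h : C(L) → C(L')` (`GAD/Defs.lean`) is injective and its image is exactly the
`Gal(L'/L)`-invariants of `C(L')`:

* `trJD_injective`, `exists_trJD_eq_of_fixed` : the same for `∏_{q ∈ S} J_q × Div^S`;
* `trT_injective`;
* `trT_fixed` : the image is fixed by `Level.relGal h`;
* `exists_trT_eq_of_fixed` : every invariant class is in the image;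
* `mem_range_trT_iff`.


-/

set_option autoImplicit false
set_option linter.unusedSectionVars false
set_option linter.style.haveILetI false

open CategoryTheory

namespace Fermat.Agent.S55.GAD.H177

open Fermat.Agent.S55 Fermat.Agent.S55.Tow Fermat.Agent.S55.E1.H594 Fermat.Agent.S55.G
open Fermat.Agent.S55.GAD

noncomputable section

variable {S : Finset Nat.Primes} {L L' : Level S} (h : L ≤ L')

theorem jdRepr_fst (L : Level S) (g : L.Gal) (y : JDV L) (q : S) :
    (jdRepr L g y).1 q = (L.J q.1).ρ g (y.1 q) := rfl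

theorem jdRepr_snd (L : Level S) (g : L.Gal) (y : JDV L) :
    (jdRepr L g y).2 = divRepr S L.Gal L.F g y.2 := rfl

theorem trJD_fst (y : JDV L) (q : S) : (trJD h y).1 q = Level.inclJ h q.1 (y.1 q) := rfl

theorem trJD_snd (y : JDV L) : (trJD h y).2 = divTr h y.2 := rfl

theorem trJD_injective : Function.Injective (trJD h) := by
  intro y y' hyy
  refine Prod.ext (funext fun q => ?_) ?_
  · apply inclJ_injective h q.1
    rw [← trJD_fst, ← trJD_fst, hyy]
  · apply divTr_injective h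
    rw [← trJD_snd, ← trJD_snd, hyy]

/-- `(∏ J_q(F') × Div^S(F'))^{Gal(F'/F)} = ∏ J_q(F) × Div^S(F)`. -/
theorem exists_trJD_eq_of_fixed (y : JDV L')
    (hy : ∀ n : L'.Gal, n ∈ Level.relGal h → jdRepr L' n y = y) :
    ∃ y₀ : JDV L, trJD h y₀ = y := by
  have h1 : ∀ q : S, ∃ f₀ : (L.J q.1).V, Level.inclJ h q.1 f₀ = y.1 q := fun q =>
    exists_inclJ_eq_of_fixed h q.1 (y.1 q) (fun n hn => by
      rw [← jdRepr_fst, hy n hn])
  choose f₀ hf₀ using h1
  obtain ⟨d₀, hd₀⟩ := exists_divTr_eq_of_fixed h y.2 (fun n hn => by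
    rw [← jdRepr_snd, hy n hn])
  exact ⟨(f₀, d₀), Prod.ext (funext fun q => hf₀ q) hd₀⟩

/-- **GAD-DESC (1).**  The transition map `C(L) → C(L')` is injective. -/
theorem trT_injective (hS : S.Nonempty) : Function.Injective (trT h).hom := by
  rw [injective_iff_map_eq_zero]
  intro c hc
  obtain ⟨y, rfl⟩ := mkC_surjective L c
  rw [trT_mkC, mkC_eq_zero_iff] at hc
  obtain ⟨z, hz⟩ := hc
  have hzfix : ∀ n : L'.Gal, n ∈ Level.relGal h → L'.units.ρ n z = z := by
    intro n hn
    apply diagT_injective L' hS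
    rw [diagT_equivariant, hz, ← trJD_equivariant]
    have : Level.proj h n = 1 := hn
    rw [this, map_one]
    rfl
  obtain ⟨z₀, rfl⟩ := exists_inclUnits_eq_of_fixed h z hzfix
  rw [mkC_eq_zero_iff]
  refine ⟨z₀, ?_⟩
  apply trJD_injective h
  rw [trJD_diagT]
  exact hz

/-- **GAD-DESC (2a).**  The image of `C(L) → C(L')` is fixed by `Gal(L'/L)`. -/
theorem trT_fixed (c : (CT L).V) (n : L'.Gal) (hn : n ∈ Level.relGal h) :
    (CT L').ρ n ((trT h).hom c) = (trT h).hom c := by
  obtain ⟨y, rfl⟩ := mkC_surjective L c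
  rw [trT_mkC, CT_ρ_mkC, ← trJD_equivariant]
  have : Level.proj h n = 1 := hn
  rw [this, map_one]
  rfl

/-- **GAD-DESC (2b).**  Every `Gal(L'/L)`-invariant class of `C(L')` comes from `C(L)`. -/
theorem exists_trT_eq_of_fixed (hS : S.Nonempty) (c : (CT L').V)
    (hc : ∀ n : L'.Gal, n ∈ Level.relGal h → (CT L').ρ n c = c) :
    ∃ c₀ : (CT L).V, (trT h).hom c₀ = c := by
  obtain ⟨y', rfl⟩ := mkC_surjective L' c
  have key : ∀ n : Level.relGal h, ∃ z : L'.units.V,
      diagT L' z = jdRepr L' (n : L'.Gal) y' - y' := by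
    intro n
    have h1 := hc n.1 n.2
    rw [CT_ρ_mkC, ← sub_eq_zero, ← map_sub] at h1
    exact (mkC_eq_zero_iff L' _).1 h1
  choose z hz using key
  have hcoc : ∀ n m : Level.relGal h, z (n * m) = z n + L'.units.ρ (n : L'.Gal) (z m) := by
    intro n m
    apply diagT_injective L' hS
    rw [map_add, diagT_equivariant, hz, hz, hz, Subgroup.coe_mul, map_mul, map_sub]
    change jdRepr L' (n : L'.Gal) (jdRepr L' (m : L'.Gal) y') - y' = _
    abel
  obtain ⟨w, hw⟩ := hilbert90_units h z hcoc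
  have hfix : ∀ n : L'.Gal, n ∈ Level.relGal h →
      jdRepr L' n (y' - diagT L' w) = y' - diagT L' w := by
    intro n hn
    have h1 := hz ⟨n, hn⟩
    have h2 := hw ⟨n, hn⟩
    rw [h2, map_sub, diagT_equivariant] at h1
    change jdRepr L' n (diagT L' w) - diagT L' w = jdRepr L' n y' - y' at h1
    rw [map_sub, sub_eq_sub_iff_add_eq_add]
    rw [sub_eq_sub_iff_add_eq_add] at h1
    rw [← h1, add_comm]
  obtain ⟨y₀, hy₀⟩ := exists_trJD_eq_of_fixed h _ hfix
  refine ⟨mkC L y₀, ?_⟩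
  rw [trT_mkC, hy₀, map_sub, mkC_diagT, sub_zero]

/-- **GAD-DESC.**  The image of the transition map `C(L) → C(L')` is exactly the
`Gal(L'/L)`-invariants. -/
theorem mem_range_trT_iff (hS : S.Nonempty) (c : (CT L').V) :
    (∀ n : L'.Gal, n ∈ Level.relGal h → (CT L').ρ n c = c) ↔ ∃ c₀ : (CT L).V, (trT h).hom c₀ = c :=
  ⟨exists_trT_eq_of_fixed h hS c, by
    rintro ⟨c₀, rfl⟩ n hn
    exact trT_fixed h c₀ n hn⟩

end

end Fermat.Agent.S55.GAD.H177
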