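import Fermat.Agent.S55.GAD.DescH177.Tower
import Fermat.Agent.S55.G.DescH773.Main

/-!
# S55 / G-ADAPTER, leaf GAD-DESC (helper177), part 2: arithmetic descent

For levels `L ≤ L'` (`H = Level.relGal h = Gal(L'/L)` acting on `L'.F`, base field `L.F`):

* `relGal_isGaloisGroup : IsGaloisGroup H L.F L'.F`;
* `exists_divTr_eq_of_fixed : Div^S(F')^H = divTr (Div^S(F))` (unramifiedness outside `S`);
* `hilbert90_units : H¹(H, F'ˣ) = 0` in cocycle form, for the tower module `L'.units`.

Uses helper773's descent toolkit (`G/DescH773`).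
-/

set_option autoImplicit false
set_option linter.unusedSectionVars false
set_option linter.style.haveILetI false

open scoped NumberField
open CategoryTheory IsDedekindDomain

namespace Fermat.Agent.S55.GAD.H177

open Fermat.Agent.S55 Fermat.Agent.S55.Tow Fermat.Agent.S55.E1.H594 Fermat.Agent.S55.G
open Fermat.Agent.S55.GAD

noncomputable section

variable {S : Finset Nat.Primes} {L L' : Level S} (h : L ≤ L')

/-- `Gal(F'/F)` is a Galois group for `F'/F`. -/
theorem relGal_isGaloisGroup :
    letI := GAD.levelAlgebra h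
    IsGaloisGroup (Level.relGal h) L.F L'.F := by
  letI := GAD.levelAlgebra h
  have hfix : ∀ x : L'.F, (∀ n : Level.relGal h, (n : L'.Gal) • x = x) ↔
      x ∈ (algebraMap L.F L'.F).range := level_relGal_fixed_iff h
  have hfixN : ∀ (n : Level.relGal h) (k : L.F),
      (n : L'.Gal) • algebraMap L.F L'.F k = algebraMap L.F L'.F k := fun n k =>
    ((hfix (algebraMap L.F L'.F k)).2 ⟨k, rfl⟩) n
  exact
    { faithful := ⟨fun {a b} hab =>
        Subtype.ext (eq_of_smul_eq_smul (α := L'.F) fun x => hab x)⟩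
      commutes := ⟨fun n k x => by
        change (n : L'.Gal) • (k • x) = k • ((n : L'.Gal) • x)
        rw [Algebra.smul_def, Algebra.smul_def, smul_mul', hfixN]⟩
      isInvariant := ⟨fun x hx => by
        obtain ⟨k, hk⟩ := (hfix x).1 hx
        exact ⟨k, hk⟩⟩ }


/-- A level `F'` is unramified over any sublevel `F` at the primes outside `S`. -/
theorem eAt_eq_one (w : PrimeOut S L'.F) :
    letI := GAD.levelAlgebra h
    DescH773.eAt L.F w.1 = 1 := by
  letI := GAD.levelAlgebra h
  haveI := relGal_isGaloisGroup h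
  refine DescH773.eAt_eq_one_of_inertia (Level.relGal h) L.F w.1 fun n hn => ?_
  have h1 : ∀ x : L'.F, (n : L'.Gal) • x = x := level_isUnramOut L' w.1 w.2 (n : L'.Gal) hn
  have h2 : (n : L'.Gal) = 1 := eq_of_smul_eq_smul (α := L'.F) fun x => by rw [h1 x, one_smul]
  exact Subtype.ext h2

theorem underPrime_eq_primeUnder (w : HeightOneSpectrum (𝓞 L'.F)) :
    letI := GAD.levelAlgebra h
    GAD.underPrime L.F L'.F w = DescH773.primeUnder L.F w := by
  letI := GAD.levelAlgebra h
  exact HeightOneSpectrum.ext rfl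

theorem ramIdx_eq_eAt (w : HeightOneSpectrum (𝓞 L'.F)) :
    letI := GAD.levelAlgebra h
    GAD.ramIdx L.F L'.F w = DescH773.eAt L.F w := by
  letI := GAD.levelAlgebra h
  unfold GAD.ramIdx DescH773.eAt
  rw [underPrime_eq_primeUnder]

theorem underOut_eq_primeOutUnder (w : PrimeOut S L'.F) :
    letI := GAD.levelAlgebra h
    GAD.underOut S L.F L'.F w = DescH773.primeOutUnder S L.F L'.F w := by
  letI := GAD.levelAlgebra h
  exact Subtype.ext (underPrime_eq_primeUnder h w.1)

theorem divTr_eq_divBase (d : PrimeOut S L.F →₀ ℤ) :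
    letI := GAD.levelAlgebra h
    divTr h d = DescH773.divBase S L.F L'.F d := by
  letI := GAD.levelAlgebra h
  ext w
  change GAD.divExt S L.F L'.F d w = _
  rw [GAD.divExt_apply, DescH773.divBase_apply, ramIdx_eq_eAt, underOut_eq_primeOutUnder]

theorem divTr_injective : Function.Injective (divTr h) :=
  @GAD.divExt_injective S L.F L'.F _ _ _ _ (GAD.levelAlgebra h)

/-- `Div^S(F')^{Gal(F'/F)} = divTr (Div^S(F))`. -/
theorem exists_divTr_eq_of_fixed (d : PrimeOut S L'.F →₀ ℤ)
    (hd : ∀ n : L'.Gal, n ∈ Level.relGal h → divRepr S L'.Gal L'.F n d = d) :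
    ∃ d₀ : PrimeOut S L.F →₀ ℤ, divTr h d₀ = d := by
  letI := GAD.levelAlgebra h
  haveI := relGal_isGaloisGroup h
  have hd' : ∀ n : Level.relGal h, divRepr S (Level.relGal h) L'.F n d = d := fun n => by
    rw [DescH773.divRepr_subgroup]
    exact hd n.1 n.2
  obtain ⟨d₀, hd₀⟩ := DescH773.exists_divBase_eq_of_fixed S (Level.relGal h) L.F L'.F
    (eAt_eq_one h) d hd'
  exact ⟨d₀, by rw [divTr_eq_divBase, hd₀]⟩

/-! ## Hilbert 90 -/

theorem toField_surjective (L : Level S) : Function.Surjective (toField L) := by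
  intro u
  refine ⟨(levelUnitsIso L).hom.hom u, ?_⟩
  exact Rep.inv_hom_apply _ _ (levelUnitsIso L) u

/-- Hilbert 90 for `F'/F` in the tower language: a `1`-cocycle `Gal(F'/F) → F'ˣ` is a
coboundary. -/
theorem hilbert90_units (z : Level.relGal h → L'.units.V)
    (hz : ∀ n m : Level.relGal h, z (n * m) = z n + L'.units.ρ (n : L'.Gal) (z m)) :
    ∃ w : L'.units.V, ∀ n : Level.relGal h, z n = L'.units.ρ (n : L'.Gal) w - w := by
  letI := GAD.levelAlgebra h
  haveI := relGal_isGaloisGroup h
  obtain ⟨β, hβ⟩ := DescH773.hilbert90 (Level.relGal h) L.F L'.F (fun n => toField L' (z n))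
    (fun n m => by
      change toField L' (z (n * m)) = toField L' (z n) + lRepr L'.Gal L'.F (n : L'.Gal) _
      rw [hz, map_add, toField_equivariant])
  obtain ⟨w, rfl⟩ := toField_surjective L' β
  refine ⟨w, fun n => ?_⟩
  apply toField_injective L'
  rw [map_sub, toField_equivariant]
  exact hβ n

end

end Fermat.Agent.S55.GAD.H177
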