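import Fermat.Agent.S55.GAD.Defs
import Fermat.Agent.S55.E1.H594.LevelProj

/-!
# S55 / G-ADAPTER, leaf GAD-DESC (helper177), part 1: tower-side descent

For levels `L ≤ L'` (`H = Level.relGal h = Gal(L'/L)`):

* `diag_injective`, `diagT_injective` : `Fˣ → J_q(F)` and `Fˣ → ∏_{q ∈ S} J_q(F) × Div^S(F)` are
  injective (`S ≠ ∅`);
* `inclUnits_injective`, `exists_inclUnits_eq_of_fixed` : `(F'ˣ)^H = Fˣ`;
* `inclJ_injective`, `exists_inclJ_eq_of_fixed` : `J_q(F')^H = J_q(F)`.

Everything is elementary (no arithmetic).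
-/

set_option autoImplicit false
set_option linter.unusedSectionVars false
set_option linter.style.haveILetI false

open CategoryTheory

namespace Fermat.Agent.S55.GAD.H177

open Fermat.Agent.S55 Fermat.Agent.S55.Tow Fermat.Agent.S55.E1.H594 Fermat.Agent.S55.G
open Fermat.Agent.S55.GAD

noncomputable section

variable {S : Finset Nat.Primes}

/-! ## Injectivity of the diagonal -/

theorem embQbar_injective (q : Nat.Primes) : Function.Injective (embQbar q) := by
  intro x y hxy
  apply Additive.toMul.injective
  have h := congrArg Additive.toMul hxy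
  exact Units.map_injective (f := (padicEmbedding (q : ℕ)).toRingHom.toMonoidHom)
    (padicEmbedding (q : ℕ)).toRingHom.injective h

theorem embFun_injective (L : Level S) (q : Nat.Primes) : Function.Injective (L.embFun q) := by
  intro x y hxy
  apply L.unitsCoe_injective
  apply embQbar_injective q
  rw [← L.locCoe_embFun, ← L.locCoe_embFun, hxy]

theorem diag_injective (L : Level S) (q : Nat.Primes) : Function.Injective (L.diag q).hom := by
  intro x y hxy
  apply embFun_injective L q
  have h := congrArg (fun f => L.Jeval q f 1) hxy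
  simp only [Level.Jeval_diag, map_one] at h
  exact h

theorem diagT_injective (L : Level S) (hS : S.Nonempty) : Function.Injective (diagT L) := by
  obtain ⟨q, hq⟩ := hS
  intro x y hxy
  apply diag_injective L q
  have h := congrArg (fun z : JDV L => z.1 ⟨q, hq⟩) hxy
  exact h


/-! ## Descent for the units -/

variable {L L' : Level S} (h : L ≤ L')

theorem inclUnits_injective : Function.Injective (Level.inclUnits h) := by
  intro x y hxy
  apply L.unitsCoe_injective
  rw [← Level.unitsCoe_inclUnits h, ← Level.unitsCoe_inclUnits h, hxy]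

theorem trUnits_apply (x : L.units.V) : (Level.trUnits h).hom x = Level.inclUnits h x := rfl

/-- `(F'ˣ)^{Gal(F'/F)} = Fˣ`. -/
theorem exists_inclUnits_eq_of_fixed (z : L'.units.V)
    (hz : ∀ n : L'.Gal, n ∈ Level.relGal h → L'.units.ρ n z = z) :
    ∃ z₀ : L.units.V, Level.inclUnits h z₀ = z := by
  refine ⟨L.unitsMk (L'.unitsCoe z) (fun g hg => ?_), ?_⟩
  · have h1 := hz (QuotientGroup.mk g) ((mk_mem_relGal_iff h g).2 hg)
    rw [← L'.units_ρ_coe, h1]
  · apply L'.unitsCoe_injective
    rfl

/-! ## Descent for the coinduced modules `J_q` -/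

theorem inclLoc_injective (q : Nat.Primes) : Function.Injective (Level.inclLoc h q) := by
  intro x y hxy
  apply L.locCoe_injective q
  rw [← Level.locCoe_inclLoc h, ← Level.locCoe_inclLoc h, hxy]

theorem inclJ_injective (q : Nat.Primes) : Function.Injective (Level.inclJ h q) := by
  intro f f' hff
  apply L.J_ext q
  intro g
  obtain ⟨g', rfl⟩ := level_proj_surjective h g
  apply inclLoc_injective h q
  rw [← Level.Jeval_inclJ, ← Level.Jeval_inclJ, hff]

theorem trJ_apply (q : Nat.Primes) (f : (L.J q).V) :
    (Level.trJ h q).hom f = Level.inclJ h q f := rfl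

theorem projDec_surjective (q : Nat.Primes) : Function.Surjective (Level.projDec h q) := by
  intro d
  induction d using QuotientGroup.induction_on with
  | H τ => exact ⟨QuotientGroup.mk τ, rfl⟩

section JFixed

variable (q : Nat.Primes) (f : (L'.J q).V)
  (hf : ∀ n : L'.Gal, n ∈ Level.relGal h → (L'.J q).ρ n f = f)

include hf

theorem Jeval_mul_of_fixed (g n : L'.Gal) (hn : n ∈ Level.relGal h) :
    L'.Jeval q f (g * n) = L'.Jeval q f g := by
  rw [← L'.Jeval_ρ, hf n hn]

theorem Jeval_eq_of_proj_eq (g₁ g₂ : L'.Gal) (hg : Level.proj h g₁ = Level.proj h g₂) :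
    L'.Jeval q f g₁ = L'.Jeval q f g₂ := by
  have hn : g₂⁻¹ * g₁ ∈ Level.relGal h := by
    unfold Level.relGal
    rw [MonoidHom.mem_ker, map_mul, map_inv, hg, inv_mul_cancel]
  have := Jeval_mul_of_fixed h q f hf g₂ (g₂⁻¹ * g₁) hn
  rw [mul_inv_cancel_left] at this
  exact this

theorem locCoe_Jeval_fixed (g : L'.Gal) (τ : GQp q) (hτ : τ ∈ L.V q) :
    (unitsQpbar q).ρ τ (L'.locCoe q (L'.Jeval q f g)) = L'.locCoe q (L'.Jeval q f g) := by
  rw [← L'.locUnits_ρ_coe, ← L'.Jeval_mul]
  congr 1
  apply Jeval_eq_of_proj_eq h q f hf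
  rw [map_mul]
  have h1 : Level.proj h (L'.decHom q (QuotientGroup.mk τ)) = 1 := by
    rw [Level.decHom_mk, Level.proj_mk]
    exact (QuotientGroup.eq_one_iff _).2 hτ
  rw [h1, one_mul]

/-- The descended element of `J_q(F)`. -/
def descJ : (L.J q).V :=
  ⟨fun g => L.locMk q (L'.locCoe q (L'.Jeval q f (Function.surjInv (level_proj_surjective h) g)))
      (fun τ hτ => locCoe_Jeval_fixed h q f hf _ τ hτ),
    fun d g => by
      obtain ⟨d', rfl⟩ := projDec_surjective h q d
      apply L.locCoe_injective q
      induction d' using QuotientGroup.induction_on with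
      | H τ =>
        rw [Level.projDec_mk, L.locUnits_ρ_coe, Level.locCoe_mk, Level.locCoe_mk,
          ← L'.locUnits_ρ_coe, ← L'.Jeval_mul]
        congr 1
        apply Jeval_eq_of_proj_eq h q f hf
        rw [Function.surjInv_eq (level_proj_surjective h), map_mul,
          Function.surjInv_eq (level_proj_surjective h), Level.decHom_mk, Level.decHom_mk,
          Level.proj_mk]⟩

theorem locCoe_Jeval_descJ (g : L.Gal) :
    L.locCoe q (L.Jeval q (descJ h q f hf) g) =
      L'.locCoe q (L'.Jeval q f (Function.surjInv (level_proj_surjective h) g)) := rfl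

theorem inclJ_descJ : Level.inclJ h q (descJ h q f hf) = f := by
  apply L'.J_ext q
  intro g
  apply L'.locCoe_injective q
  rw [Level.Jeval_inclJ, Level.locCoe_inclLoc, locCoe_Jeval_descJ]
  congr 1
  apply Jeval_eq_of_proj_eq h q f hf
  rw [Function.surjInv_eq (level_proj_surjective h)]

/-- `J_q(F')^{Gal(F'/F)} = J_q(F)`. -/
theorem exists_inclJ_eq_of_fixed : ∃ f₀ : (L.J q).V, Level.inclJ h q f₀ = f :=
  ⟨descJ h q f hf, inclJ_descJ h q f hf⟩

end JFixed

end

end Fermat.Agent.S55.GAD.H177
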